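import Mathlib
import Fermat.Agent.S48.ModL.Lvl
import Fermat.Agent.S24.Gen
import Fermat.Agent.S24.Conj

/-!
# S48 / MODL / AD : analytic dictionary for a general level `L : Lvl`

Port of the second half of `GAL/AD/Basic.lean` (the first half is in `ModL/Lvl.lean`):
the generators, `j`, the embeddings `L.sigma0K ι g`, `L.sigmaK ι x` in `Mer`.
-/

set_option autoImplicit false

open UpperHalfPlane hiding I
open Function ModularCurve CongruenceSubgroup
open scoped Manifold MatrixGroups
open Fermat.Agent.S24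

namespace Fermat.Agent.S48.ModL

noncomputable section

namespace Lvl

variable (L : Lvl)

instance finiteIndex_G : L.G.FiniteIndex := Subgroup.finiteIndex_of_le L.Gamma_le

instance fintypeX : Fintype L.X := Subgroup.fintypeQuotientOfFiniteIndex

section Field

variable (K : Type*) [Field K] [Algebra ℚ K]

/-- The generators. -/
def genSetFK : Set (L.FK K) := Set.range (L.genK K)

theorem adjoin_genSetFK_eq_top : IntermediateField.adjoin K (L.genSetFK K) = ⊤ := by
  rw [eq_top_iff]
  intro x _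
  refine L.mem_subfield_of_gen (IntermediateField.adjoin K (L.genSetFK K)).toSubfield ?_ ?_ x
  · intro a
    exact IntermediateField.algebraMap_mem _ a
  · intro i
    exact IntermediateField.subset_adjoin _ _ ⟨i, rfl⟩

theorem finite_genSetFK : (L.genSetFK K).Finite := Set.finite_range _

theorem coe_jK : ((L.jK K : L.FK K) : LaurentSeries K) = jqModC K := by
  rw [jK, coe_genK, L.gen_i₀, ← jqNModC_one, ← coeffEmb_qExpand_jq, qExpand_one_apply]

theorem transcendental_jK : Transcendental K (L.jK K) := by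
  have h : Transcendental K (jqModC K) :=
    P2MW.S_ModularCurve_coeff_jqModC_neg_one.ModularCurve.CharLRows.transcendental_jqModC K
  intro halg
  apply h
  rw [← L.coe_jK K]
  exact halg.algebraMap (A := LaurentSeries K)

end Field

/-- the generator of index `i₀` is `j`, as a periodic function -/
theorem per_i₀ : L.per L.i₀ = jdPer 1 := by
  apply toLaurent_injective 1
  rw [L.toLaurent_per, toLaurent_jdPer, L.gen_i₀, ← coeffEmb_qExpand_jq, qExpand_one_apply]

/-- the generator of index `i₀` is `j`, as a holomorphic function -/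
theorem hol_i₀ : L.hol L.i₀ = jdHol 1 := by
  apply IsFractionRing.injective Hol Mer
  rw [← L.toMer_per, per_i₀, toMer_jdPer]

section Theta

variable {K : Type*} [Field K] [Algebra ℚ K] (ι : K →+* ℂ)

theorem thetaK_jK : L.thetaK ι (L.jK K) = algebraMap Hol Mer (jdHol 1) := by
  rw [jK, thetaK_genK, hol_i₀]

/-- `f ↦ g · thetaK f`. -/
def sigma0K (g : SL(2, ℤ)) : L.FK K →+* Mer :=
  ((actMer g : Mer ≃ₐ[ℂ] Mer) : Mer →+* Mer).comp (L.thetaK ι)

theorem sigma0K_apply (g : SL(2, ℤ)) (f : L.FK K) :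
    L.sigma0K ι g f = actMer g (L.thetaK ι f) := rfl

theorem sigma0K_algebraMap (g : SL(2, ℤ)) (a : K) :
    L.sigma0K ι g (algebraMap K (L.FK K) a) = algebraMap ℂ Mer (ι a) := by
  rw [sigma0K_apply, thetaK_algebraMap, AlgEquiv.commutes]

theorem sigma0K_genK (g : SL(2, ℤ)) (i : L.ι) :
    L.sigma0K ι g (L.genK K i) = algebraMap Hol Mer (actHol g (L.hol i)) := by
  rw [sigma0K_apply, thetaK_genK, actMer_algebraMap]

theorem sigma0K_mul (g h : SL(2, ℤ)) (f : L.FK K) :
    L.sigma0K ι (g * h) f = actMer g (L.sigma0K ι h f) := by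
  rw [sigma0K_apply, sigma0K_apply, map_mul]
  rfl

theorem sigma0K_one : L.sigma0K ι 1 = L.thetaK ι := by
  ext f
  rw [sigma0K_apply, map_one]
  rfl

theorem sigma0K_of_mem {γ : SL(2, ℤ)} (hγ : γ ∈ L.G) : L.sigma0K ι γ = L.thetaK ι := by
  ext f
  rw [sigma0K_apply, L.actMer_thetaK ι hγ]

theorem sigma0K_mul_of_mem (g : SL(2, ℤ)) {γ : SL(2, ℤ)} (hγ : γ ∈ L.G) :
    L.sigma0K ι (g * γ) = L.sigma0K ι g := by
  ext f
  rw [sigma0K_mul, L.sigma0K_of_mem ι hγ, sigma0K_apply]

/-- The family of embeddings indexed by the cosets. -/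
def sigmaK (x : L.X) : L.FK K →+* Mer := L.sigma0K ι x.out

theorem sigmaK_mk (g : SL(2, ℤ)) : L.sigmaK ι (g : L.X) = L.sigma0K ι g := by
  obtain ⟨γ, hγ⟩ := QuotientGroup.mk_out_eq_mul L.G g
  rw [sigmaK, hγ, L.sigma0K_mul_of_mem ι g γ.2]

theorem actMer_sigmaK (s : SL(2, ℤ)) (x : L.X) (f : L.FK K) :
    actMer s (L.sigmaK ι x f) = L.sigmaK ι (s • x) f := by
  induction x using QuotientGroup.induction_on with
  | H g =>
    rw [MulAction.Quotient.smul_coe, smul_eq_mul, sigmaK_mk, sigmaK_mk, sigma0K_mul]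

theorem sigmaK_algebraMap (x : L.X) (a : K) :
    L.sigmaK ι x (algebraMap K (L.FK K) a) = algebraMap ℂ Mer (ι a) :=
  L.sigma0K_algebraMap ι _ a

theorem sigmaK_jK (x : L.X) : L.sigmaK ι x (L.jK K) = algebraMap Hol Mer (jdHol 1) := by
  rw [sigmaK, jK, sigma0K_genK, hol_i₀, actHol_jdHol_one jfun_isSLInvariant]

theorem sigmaK_injective : Injective (L.sigmaK (K := K) ι) := by
  intro x y hxy
  induction x using QuotientGroup.induction_on with
  | H g =>
  induction y using QuotientGroup.induction_on with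
  | H h =>
    rw [sigmaK_mk, sigmaK_mk] at hxy
    rw [QuotientGroup.eq]
    apply L.sep
    intro i
    have h1 := congrArg (fun φ : L.FK K →+* Mer => φ (L.genK K i)) hxy
    simp only [sigma0K_genK] at h1
    have h2 := IsFractionRing.injective Hol Mer h1
    rw [map_mul, AlgEquiv.mul_apply, ← h2, ← AlgEquiv.mul_apply, ← map_mul, inv_mul_cancel,
      map_one, AlgEquiv.one_apply]

theorem merVal_sigma0K (g : SL(2, ℤ)) (τ : ℍ) (f : L.FK K) :
    merVal τ (L.sigma0K ι g f) = merVal (g⁻¹ • τ) (L.thetaK ι f) := by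
  rw [sigma0K_apply, merVal_actMer]

end Theta

end Lvl

end

end Fermat.Agent.S48.ModL
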