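import Mathlib
import Fermat.Agent.S48.ModL.AD.Basic
import Fermat.Agent.S48.ModL.AD.Conj
import Fermat.Agent.S24.CP

/-!
# S48 / MODL / AD : the degree theorem for a general level

`[L.FK K : K(j)] = card (SL₂(ℤ) / L.G)`.  Port of `GAL/AD/Degree.lean` + `S24/CP.lean`.
-/

set_option autoImplicit false

open ModularCurve IntermediateField CongruenceSubgroup UpperHalfPlane
open scoped MatrixGroups
open Fermat.Agent.S24

namespace Fermat.Agent.S48.ModL

noncomputable section

namespace Lvl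

variable (L : Lvl)

/-- the holomorphic generators -/
def genSetHol : Set Hol := Set.range L.hol

/-- all `SL(2,ℤ)`-translates of elements of `ℂ[hol i]` have moderate growth. -/
theorem modGrowth_actHol (g : SL(2, ℤ)) {h : Hol}
    (hh : h ∈ Algebra.adjoin ℂ L.genSetHol) : ModGrowth (actHol g h : ℍ → ℂ) := by
  induction hh using Algebra.adjoin_induction with
  | mem x hx =>
    obtain ⟨i, rfl⟩ := hx
    exact L.growth i g
  | algebraMap c =>
    rw [AlgEquiv.commutes]
    exact ModGrowth.const c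
  | add x y _ _ hx hy =>
    rw [map_add]
    exact hx.add hy
  | mul x y _ _ hx hy =>
    rw [map_mul]
    exact hx.mul hy

theorem actHol_of_mem_adjoin {h : Hol} (hh : h ∈ Algebra.adjoin ℂ L.genSetHol)
    {γ : SL(2, ℤ)} (hγ : γ ∈ L.G) : actHol γ h = h := by
  induction hh using Algebra.adjoin_induction with
  | mem x hx =>
    obtain ⟨i, rfl⟩ := hx
    exact L.inv i γ hγ
  | algebraMap c => rw [AlgEquiv.commutes]
  | add x y _ _ hx hy => rw [map_add, hx, hy]
  | mul x y _ _ hx hy => rw [map_mul, hx, hy]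

theorem isGInv_of_mem_adjoin {h : Hol} (hh : h ∈ Algebra.adjoin ℂ L.genSetHol) :
    AD.IsGInv L.G (h : ℍ → ℂ) := by
  intro γ hγ τ
  have h1 := L.actHol_of_mem_adjoin hh (inv_mem hγ)
  have h2 := congrFun (congrArg Subtype.val h1) τ
  rw [actHol_apply, inv_inv] at h2
  exact h2

/-- (CP) for a general level. -/
theorem charpolyCoeff (θ : Mer)
    (hθ : θ ∈ Algebra.adjoin ℂ ((IsScalarTower.toAlgHom ℂ Hol Mer) '' L.genSetHol)) (i : ℕ) :
    ∃ p : Polynomial ℂ,
      (∏ x : L.X, (Polynomial.X - Polynomial.C (actMer (Quotient.out x) θ))).coeff i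
        = Polynomial.aeval (algebraMap Hol Mer (jdHol 1)) p := by
  rw [Algebra.adjoin_image] at hθ
  obtain ⟨h, hh, rfl⟩ := hθ
  have huS : ∀ c : AD.Q L.G, AD.conj L.G (h : ℍ → ℂ) c ∈ holGrowth := fun c =>
    ⟨(actHol (Quotient.out c) h).2, L.modGrowth_actHol (Quotient.out c) hh⟩
  obtain ⟨P, hP⟩ := AD.charpoly_coeff_of holGrowth holGrowthToMer jHolGrowth
    exists_aeval_of_invariant (L.isGInv_of_mem_adjoin hh) huS i
  refine ⟨P, ?_⟩
  have e : ∀ c : AD.Q L.G, holGrowthToMer ⟨AD.conj L.G (h : ℍ → ℂ) c, huS c⟩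
      = actMer (Quotient.out c) (IsScalarTower.toAlgHom ℂ Hol Mer h) := fun c =>
    (actMer_algebraMap (Quotient.out c) h).symm
  simp only [e] at hP
  have hJ : holGrowthToMer jHolGrowth = algebraMap Hol Mer (jdHol 1) := rfl
  rw [hJ] at hP
  rw [← hP]
  rfl

variable {K : Type*} [Field K] [Algebra ℚ K] (ι : K →+* ℂ)

theorem thetaK_image_genSetFK :
    L.thetaK ι '' L.genSetFK K = (IsScalarTower.toAlgHom ℂ Hol Mer) '' L.genSetHol := by
  ext x
  constructor
  · rintro ⟨_, ⟨i, rfl⟩, rfl⟩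
    exact ⟨L.hol i, ⟨i, rfl⟩, (L.thetaK_genK ι i).symm⟩
  · rintro ⟨_, ⟨i, rfl⟩, rfl⟩
    exact ⟨L.genK K i, ⟨i, rfl⟩, L.thetaK_genK ι i⟩

set_option synthInstance.maxHeartbeats 400000 in
theorem thetaK_relation (m : ℕ) (p : Fin m → Polynomial ℂ) (f : Fin m → L.FK K)
    (h : ∑ i, Polynomial.aeval (L.thetaK ι (L.jK K)) (p i) * L.thetaK ι (f i) = 0) :
    ∑ i, Polynomial.aeval (coeffMap ι ((L.FKf K).val (L.jK K))) (p i)
      * coeffMap ι ((L.FKf K).val (f i)) = 0 := by
  have h1 : toMer 1 (∑ i, Polynomial.aeval (L.thetaPer ι (L.jK K)) (p i)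
      * L.thetaPer ι (f i)) = 0 := by
    rw [map_sum (toMer 1), ← h]
    refine Finset.sum_congr rfl fun i _ => ?_
    rw [map_mul, toMer_aeval]
    rfl
  have h2 := (map_eq_zero_iff _ (toMer_injective 1)).mp h1
  have h3 := congrArg (toLaurent 1) h2
  rw [map_zero, map_sum (toLaurent 1)] at h3
  rw [← h3]
  refine Finset.sum_congr rfl fun i _ => ?_
  rw [map_mul, toLaurent_aeval, toLaurent_thetaPer, toLaurent_thetaPer]
  rfl

include ι in
set_option synthInstance.maxHeartbeats 400000 in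
theorem degreeK :
    FiniteDimensional K⟮L.jK K⟯ (L.FK K) ∧
      Module.finrank K⟮L.jK K⟯ (L.FK K) = Nat.card L.X := by
  classical
  rw [Nat.card_eq_fintype_card]
  refine finrank_eq_card_of_conjugates ι (L.FKf K).val (L.jK K)
    (L.transcendental_jK K) (L.thetaK ι) (L.finite_genSetFK K).toFinset ?_ ?_
    (L.thetaK_relation ι)
    (fun x : L.X => ((actMer (Quotient.out x) : Mer ≃ₐ[ℂ] Mer) : Mer →ₐ[ℂ] Mer))
    ((1 : SL(2, ℤ)) : L.X) ?_ ?_ ?_ ?_
  · rw [Set.Finite.coe_toFinset]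
    exact L.adjoin_genSetFK_eq_top K
  · exact L.thetaK_algebraMap ι
  · intro f
    have h1 : L.sigmaK ι ((1 : SL(2, ℤ)) : L.X) f = L.sigma0K ι 1 f := by rw [sigmaK_mk]
    rw [sigma0K_one] at h1
    exact h1
  · intro x
    have h1 := L.sigmaK_jK ι x
    rw [← L.thetaK_jK ι] at h1
    exact h1
  · intro x y hxy
    exact L.sigmaK_injective ι hxy
  · rw [Set.Finite.coe_toFinset, thetaK_jK, thetaK_image_genSetFK]
    exact L.charpolyCoeff

include ι in
theorem isFiniteParam_jK : IsFiniteParam K (L.jK K) :=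
  ⟨L.transcendental_jK K, (L.degreeK ι).1⟩

include ι in
theorem finrank_jK : Module.finrank K⟮L.jK K⟯ (L.FK K) = Nat.card L.X := (L.degreeK ι).2

end Lvl

end

end Fermat.Agent.S48.ModL
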