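import Mathlib
import Fermat.Agent.S48.ModL.Lvl
import Fermat.Agent.GAL.InvRat

/-!
# S48 / MODL : [P-AD3] invariant + algebraic over `ℂ(j)` implies rational, for a general `L : Lvl`

Port of the second half of `GAL/InvRat` :
(LAG) an `L.G`-invariant element of `Mer` algebraic over `ℂ(j)` lies in `ℂ(hol i : i)`.
New with respect to `Γ₀(N)`: the generators are algebraic over `ℂ(j)` (from `L.growth`, `L.inv`), and
a generic linear combination `u` of the generators separates the cosets (from `L.sep`).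
-/

set_option autoImplicit false

open UpperHalfPlane hiding I
open Polynomial IntermediateField CongruenceSubgroup Filter ModularCurve
open scoped MatrixGroups Manifold IntermediateField.algebraAdjoinAdjoin
open Fermat.Agent.S24 Fermat.Agent.GAL

namespace Fermat.Agent.S48.ModL

noncomputable section

variable (L : Lvl)

namespace InvRat

theorem finiteIndex_G : L.G.FiniteIndex := Subgroup.finiteIndex_of_le L.Gamma_le

instance finite_X : Finite L.X :=
  haveI := finiteIndex_G L
  Subgroup.finite_quotient_of_finiteIndex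

/-- (local) `Fintype` structure on the coset space -/
abbrev fintypeX : Fintype L.X := Fintype.ofFinite _

theorem per_i₀ : L.per L.i₀ = jdPer 1 := by
  apply (toLaurent 1).injective
  rw [L.toLaurent_per, L.gen_i₀, toLaurent_jdPer, ← coeffEmb_qExpand_jq, qExpand_one_apply]

theorem hol_i₀ : L.hol L.i₀ = jdHol 1 := by
  apply IsFractionRing.injective Hol Mer
  rw [← L.toMer_per, per_i₀, toMer_jdPer]

end InvRat

attribute [local instance] InvRat.fintypeX

/-- the generators as elements of `Mer`. -/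
def genMer (i : L.ι) : Mer := algebraMap Hol Mer (L.hol i)

theorem genMer_i₀ : genMer L L.i₀ = jMer 1 := by
  rw [genMer, InvRat.hol_i₀, jMer]

theorem actMer_genMer_of_mem (i : L.ι) {γ : SL(2, ℤ)} (hγ : γ ∈ L.G) :
    actMer γ (genMer L i) = genMer L i := by
  rw [genMer, actMer_algebraMap, L.inv i γ hγ]

/-! ### Conjugates -/

/-- The conjugate of `h` attached to a coset. -/
def conjM (h : Mer) (c : L.X) : Mer := actMer (Quotient.out c) h

variable {L}

theorem conjM_mk {h : Mer} (hh : ∀ γ ∈ L.G, actMer γ h = h) (a : SL(2, ℤ)) :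
    conjM L h (a : L.X) = actMer a h := by
  obtain ⟨γ, hγ⟩ := QuotientGroup.mk_out_eq_mul L.G a
  rw [conjM, hγ, map_mul]
  show actMer a (actMer γ h) = actMer a h
  rw [hh γ γ.2]

theorem actMer_conjM {h : Mer} (hh : ∀ γ ∈ L.G, actMer γ h = h) (g : SL(2, ℤ)) (c : L.X) :
    actMer g (conjM L h c) = conjM L h (g • c) := by
  induction c using QuotientGroup.induction_on with
  | H a =>
    rw [MulAction.Quotient.smul_coe, smul_eq_mul, conjM_mk hh, conjM_mk hh, map_mul]
    rfl

theorem conjM_base {h : Mer} (hh : ∀ γ ∈ L.G, actMer γ h = h) :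
    conjM L h ((1 : SL(2, ℤ)) : L.X) = h := by
  rw [conjM_mk hh, map_one]
  rfl

theorem isAlgebraic_conjM {h : Mer} (hh : IsAlgebraic ℂ⟮jMer 1⟯ h) (c : L.X) :
    IsAlgebraic ℂ⟮jMer 1⟯ (conjM L h c) := isAlgebraic_actMer _ hh

/-! ### The characteristic polynomial of a generator -/

/-- the characteristic polynomial -/
def charM (L : Lvl) (u : Mer) : Mer[X] := ∏ c : L.X, (X - C (conjM L u c))

theorem charM_map {u : Mer} (hu : ∀ γ ∈ L.G, actMer γ u = u) (g : SL(2, ℤ)) :
    (charM L u).map ((actMer g : Mer ≃ₐ[ℂ] Mer) : Mer →+* Mer) = charM L u := by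
  classical
  set φ : Mer →+* Mer := ((actMer g : Mer ≃ₐ[ℂ] Mer) : Mer →+* Mer) with hφ
  have eu : ∀ c, φ (conjM L u c) = conjM L u (g • c) := fun c => actMer_conjM hu g c
  unfold charM
  rw [Polynomial.map_prod]
  refine Fintype.prod_equiv (MulAction.toPerm g) _ _ fun c => ?_
  rw [Polynomial.map_sub, Polynomial.map_X, Polynomial.map_C, eu]
  rfl

theorem eval_charM {u : Mer} (hu : ∀ γ ∈ L.G, actMer γ u = u) : (charM L u).eval u = 0 := by
  rw [charM, eval_prod]
  refine Finset.prod_eq_zero (Finset.mem_univ ((1 : SL(2, ℤ)) : L.X)) ?_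
  rw [conjM_base hu]
  simp

theorem holGrowthToMer_apply (f : holGrowth) :
    holGrowthToMer f = algebraMap Hol Mer ⟨(f : ℍ → ℂ), f.2.1⟩ := rfl

theorem charM_genMer_coeff (i : L.ι) (k : ℕ) :
    ∃ b : ℂ[X], (charM L (genMer L i)).coeff k = aeval (jMer 1) b := by
  classical
  let cx : L.X → holGrowth := fun x =>
    ⟨(actHol (Quotient.out x) (L.hol i) : ℍ → ℂ),
      ⟨(actHol (Quotient.out x) (L.hol i)).2, L.growth i (Quotient.out x)⟩⟩
  set p : holGrowth[X] := ∏ x : L.X, (X - C (cx x)) with hp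
  have hmap : p.map holGrowthToMer.toRingHom = charM L (genMer L i) := by
    rw [hp, charM, Polynomial.map_prod]
    refine Finset.prod_congr rfl fun x _ => ?_
    rw [Polynomial.map_sub, Polynomial.map_X, Polynomial.map_C]
    congr 2
    show algebraMap Hol Mer (actHol (Quotient.out x) (L.hol i)) = _
    rw [conjM, genMer, actMer_algebraMap]
  have hinv : S28.IsSL2Inv ((p.coeff k : holGrowth) : ℍ → ℂ) := by
    intro γ τ
    have h1 := congrArg (fun q => Polynomial.coeff q k)
      (charM_map (L := L) (u := genMer L i) (fun γ hγ => actMer_genMer_of_mem L i hγ) γ⁻¹)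
    simp only [coeff_map, ← hmap] at h1
    have h2 : actMer γ⁻¹ (holGrowthToMer (p.coeff k)) = holGrowthToMer (p.coeff k) := h1
    rw [holGrowthToMer_apply, actMer_algebraMap] at h2
    have h3 := IsFractionRing.injective Hol Mer h2
    have h4 := congrFun (congrArg Subtype.val h3) τ
    rw [actHol_apply, inv_inv] at h4
    exact h4
  obtain ⟨b, hb⟩ := exists_aeval_of_invariant (p.coeff k) hinv
  refine ⟨b, ?_⟩
  rw [← hmap, coeff_map, hb]
  exact (Polynomial.aeval_algHom_apply holGrowthToMer jHolGrowth b).symm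

/-- the generators are algebraic over `ℂ(j)`. -/
theorem isAlgebraic_genMer (i : L.ι) : IsAlgebraic ℂ⟮jMer 1⟯ (genMer L i) := by
  classical
  set Φ : Mer[X] := charM L (genMer L i) with hΦ
  have hmonic : Φ.Monic := monic_prod_of_monic _ _ fun x _ => monic_X_sub_C _
  have hl : Φ ∈ lifts (algebraMap ℂ⟮jMer 1⟯ Mer) := by
    rw [lifts_iff_coeff_lifts]
    intro k
    obtain ⟨b, hb⟩ := charM_genMer_coeff (L := L) i k
    refine ⟨⟨aeval (jMer 1) b, ?_⟩, hb.symm⟩
    apply IntermediateField.algebra_adjoin_le_adjoin ℂ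
    rw [Algebra.adjoin_singleton_eq_range_aeval]
    exact ⟨b, rfl⟩
  obtain ⟨q, hq, -, hqm⟩ := lifts_and_natDegree_eq_and_monic hl hmonic
  refine ⟨q, hqm.ne_zero, ?_⟩
  rw [aeval_def, ← eval_map, hq, hΦ]
  exact eval_charM fun γ hγ => actMer_genMer_of_mem L i hγ

/-! ### Lagrange interpolation -/

section Lagrange

open Classical in
/-- The Lagrange numerator. -/
def lagM (L : Lvl) (u h : Mer) : Mer[X] :=
  ∑ c : L.X, C (conjM L h c) * ∏ c' ∈ Finset.univ.erase c, (X - C (conjM L u c'))

theorem lagM_map {u h : Mer} (hu : ∀ γ ∈ L.G, actMer γ u = u)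
    (hh : ∀ γ ∈ L.G, actMer γ h = h) (g : SL(2, ℤ)) :
    (lagM L u h).map ((actMer g : Mer ≃ₐ[ℂ] Mer) : Mer →+* Mer) = lagM L u h := by
  classical
  set φ : Mer →+* Mer := ((actMer g : Mer ≃ₐ[ℂ] Mer) : Mer →+* Mer) with hφ
  have eu : ∀ c, φ (conjM L u c) = conjM L u (g • c) := fun c => actMer_conjM hu g c
  have eh : ∀ c, φ (conjM L h c) = conjM L h (g • c) := fun c => actMer_conjM hh g c
  have h1 : (lagM L u h).map φ = ∑ c : L.X, C (conjM L h (g • c)) *
      ∏ c' ∈ Finset.univ.erase c, (X - C (conjM L u (g • c'))) := by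
    unfold lagM
    rw [Polynomial.map_sum]
    refine Finset.sum_congr rfl fun c _ => ?_
    rw [Polynomial.map_mul, Polynomial.map_C, eh, Polynomial.map_prod]
    congr 1
    refine Finset.prod_congr (by congr) fun c' _ => ?_
    rw [Polynomial.map_sub, Polynomial.map_X, Polynomial.map_C, eu]
  rw [h1]
  unfold lagM
  refine Fintype.sum_equiv (MulAction.toPerm g)
    (fun c => C (conjM L h (g • c)) * ∏ c' ∈ Finset.univ.erase c, (X - C (conjM L u (g • c'))))
    (fun c => C (conjM L h c) * ∏ c' ∈ Finset.univ.erase c, (X - C (conjM L u c'))) (fun c => ?_)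
  simp only [MulAction.toPerm_apply]
  have h2 : ∏ c' ∈ Finset.univ.erase c, (X - C (conjM L u (g • c'))) =
      ∏ c' ∈ Finset.univ.erase (g • c), (X - C (conjM L u c')) := by
    refine Finset.prod_bij (fun c' _ => g • c') ?_ ?_ ?_ ?_
    · intro a ha
      rw [Finset.mem_erase] at ha ⊢
      exact ⟨fun h => ha.1 (smul_left_cancel g h), Finset.mem_univ _⟩
    · intro a _ b _ hab
      exact smul_left_cancel g hab
    · intro b hb
      rw [Finset.mem_erase] at hb
      refine ⟨g⁻¹ • b, ?_, smul_inv_smul g b⟩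
      rw [Finset.mem_erase]
      exact ⟨fun h => hb.1 (by rw [← h, smul_inv_smul]), Finset.mem_univ _⟩
    · intro a _
      rfl
  rw [h2]

theorem lagM_coeff_mem {u h : Mer} (hu : ∀ γ ∈ L.G, actMer γ u = u)
    (hh : ∀ γ ∈ L.G, actMer γ h = h) (hua : IsAlgebraic ℂ⟮jMer 1⟯ u)
    (hha : IsAlgebraic ℂ⟮jMer 1⟯ h) (i : ℕ) : (lagM L u h).coeff i ∈ ℂ⟮jMer 1⟯ := by
  classical
  apply mem_adjoin_of_invariant
  · intro g
    have h1 := congrArg (fun p => Polynomial.coeff p i) (lagM_map hu hh g)
    simp only [coeff_map] at h1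
    exact h1
  · set Ω := algebraicClosure ℂ⟮jMer 1⟯ Mer with hΩ
    have hu' : ∀ c, conjM L u c ∈ Ω := fun c =>
      mem_algebraicClosure_iff.mpr (isAlgebraic_conjM hua c)
    have hh' : ∀ c, conjM L h c ∈ Ω := fun c =>
      mem_algebraicClosure_iff.mpr (isAlgebraic_conjM hha c)
    have h1 : lagM L u h = (∑ c : L.X, C (⟨conjM L h c, hh' c⟩ : Ω) *
        ∏ c' ∈ Finset.univ.erase c, (X - C (⟨conjM L u c', hu' c'⟩ : Ω))).map
          (algebraMap Ω Mer) := by
      simp only [lagM, Polynomial.map_sum, Polynomial.map_mul, Polynomial.map_prod,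
        Polynomial.map_sub, Polynomial.map_X, Polynomial.map_C]
      rfl
    rw [h1, coeff_map]
    exact mem_algebraicClosure_iff.mp (Subtype.mem _)

open Classical in
theorem eval_lagM {u h : Mer} (c0 : L.X) :
    (lagM L u h).eval (conjM L u c0) =
      conjM L h c0 * ∏ c' ∈ (Finset.univ.erase c0 : Finset L.X),
        (conjM L u c0 - conjM L u c') := by
  classical
  rw [lagM, eval_finsetSum, Finset.sum_eq_single c0]
  · rw [eval_mul, eval_C, eval_prod]
    simp
  · intro c _ hc
    rw [eval_mul, eval_prod, Finset.prod_eq_zero (i := c0)]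
    · simp
    · exact Finset.mem_erase.mpr ⟨hc.symm, Finset.mem_univ _⟩
    · simp
  · intro h0
    exact absurd (Finset.mem_univ _) h0

variable (L)

/-- the field generated by the generators -/
def genField : IntermediateField ℂ Mer := IntermediateField.adjoin ℂ (Set.range (genMer L))

theorem genMer_mem_genField (i : L.ι) : genMer L i ∈ genField L :=
  IntermediateField.subset_adjoin ℂ _ ⟨i, rfl⟩

theorem adjoin_jMer_one_le : ℂ⟮jMer 1⟯ ≤ genField L := by
  rw [IntermediateField.adjoin_simple_le_iff, ← genMer_i₀ L]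
  exact genMer_mem_genField L _

/-- a generic linear combination of the generators separates the cosets. -/
theorem exists_separating :
    ∃ u : Mer, u ∈ genField L ∧ (∀ γ ∈ L.G, actMer γ u = u) ∧ IsAlgebraic ℂ⟮jMer 1⟯ u ∧
      ∀ c : L.X, conjM L u c = u → c = ((1 : SL(2, ℤ)) : L.X) := by
  classical
  let f : L.X → ((L.ι → ℂ) →ₗ[ℂ] Mer) := fun c =>
    ∑ i, (LinearMap.proj i : (L.ι → ℂ) →ₗ[ℂ] ℂ).smulRight (conjM L (genMer L i) c - genMer L i)
  have hf : ∀ c t, f c t = ∑ i, t i • (conjM L (genMer L i) c - genMer L i) := by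
    intro c t
    simp [f, LinearMap.sum_apply]
  have hne : ∀ c : {c : L.X // c ≠ ((1 : SL(2, ℤ)) : L.X)}, LinearMap.ker (f c) ≠ ⊤ := by
    rintro ⟨c, hc⟩ htop
    apply hc
    have hmem : Quotient.out c ∈ L.G := by
      apply L.sep
      intro i
      have h1 : f c (Pi.single i 1) = 0 := by
        have : (Pi.single i 1 : L.ι → ℂ) ∈ LinearMap.ker (f c) := by rw [htop]; trivial
        exact this
      rw [hf, Finset.sum_eq_single i] at h1
      · rw [Pi.single_eq_same, one_smul, sub_eq_zero, conjM, genMer, actMer_algebraMap] at h1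
        exact IsFractionRing.injective Hol Mer h1
      · intro b _ hb
        rw [Pi.single_eq_of_ne hb, zero_smul]
      · intro h0
        exact absurd (Finset.mem_univ _) h0
    have h5 : ((Quotient.out c : SL(2, ℤ)) : L.X) = c := Quotient.out_eq' c
    rw [← h5, QuotientGroup.eq]
    simpa using L.G.inv_mem hmem
  obtain ⟨t, ht⟩ := Submodule.exists_forall_notMem_of_forall_ne_top _ hne
  refine ⟨∑ i, t i • genMer L i, ?_, ?_, ?_, ?_⟩
  · exact sum_mem fun i _ => (genField L).smul_mem (genMer_mem_genField L i)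
  · intro γ hγ
    rw [map_sum]
    refine Finset.sum_congr rfl fun i _ => ?_
    rw [map_smul, actMer_genMer_of_mem L i hγ]
  · rw [← mem_algebraicClosure_iff]
    refine sum_mem fun i _ => ?_
    rw [Algebra.smul_def]
    refine mul_mem ?_ (mem_algebraicClosure_iff.mpr (isAlgebraic_genMer i))
    rw [mem_algebraicClosure_iff, IsScalarTower.algebraMap_apply ℂ ℂ⟮jMer 1⟯ Mer]
    exact isAlgebraic_algebraMap _
  · intro c hc
    by_contra hne'
    apply ht ⟨c, hne'⟩
    rw [LinearMap.mem_ker, hf]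
    simp only [smul_sub, Finset.sum_sub_distrib]
    rw [sub_eq_zero, ← hc, conjM, map_sum]
    refine Finset.sum_congr rfl fun i _ => ?_
    rw [map_smul, conjM]

/-- (LAG) an `L.G`-invariant element of `Mer` algebraic over `ℂ(j)` lies in the field generated by
the generators. -/
theorem mem_genField_of_invariant (h : Mer) (hinv : ∀ γ ∈ L.G, actMer γ h = h)
    (halg : IsAlgebraic ℂ⟮jMer 1⟯ h) : h ∈ genField L := by
  classical
  set E := genField L with hE
  obtain ⟨u, huE, huinv, hualg, husep⟩ := exists_separating L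
  set c0 : L.X := ((1 : SL(2, ℤ)) : L.X) with hc0
  have hu0 : conjM L u c0 = u := conjM_base huinv
  have h1inv : ∀ γ ∈ L.G, actMer γ (1 : Mer) = 1 := fun γ _ => map_one _
  have key : ∀ w : Mer, (∀ γ ∈ L.G, actMer γ w = w) → IsAlgebraic ℂ⟮jMer 1⟯ w →
      w * ∏ c' ∈ (Finset.univ.erase c0 : Finset L.X), (u - conjM L u c') ∈ E := by
    intro w hw hwa
    have h2 := eval_lagM (L := L) (u := u) (h := w) c0
    rw [hu0, conjM_base hw] at h2
    rw [← h2]
    exact eval_mem_of_coeff_mem
      (fun i => adjoin_jMer_one_le L (lagM_coeff_mem huinv hw hualg hwa i)) huE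
  set D := ∏ c' ∈ (Finset.univ.erase c0 : Finset L.X), (u - conjM L u c') with hD
  have hD0 : D ≠ 0 := by
    rw [hD, Finset.prod_ne_zero_iff]
    intro c' hc'
    rw [sub_ne_zero]
    intro h3
    exact (Finset.mem_erase.mp hc').1 (husep c' h3.symm)
  have hDE : D ∈ E := by
    have := key 1 h1inv isAlgebraic_one
    rwa [one_mul] at this
  have := div_mem (key h hinv halg) hDE
  rwa [mul_div_cancel_right₀ _ hD0] at this

end Lagrange

end

end Fermat.Agent.S48.ModL
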