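import Mathlib
import Fermat.Agent.S48.ModL.AD.InvRat

/-!
# S48 / MODL : [P-AD3] the range of `L.thetaK`

Algebraicity over `ℂ(j)`; over `K = ℂ` every `L.G`-invariant element of `Mer` algebraic over `ℂ(j)`
lies in the range.  Port of `GAL/AD/Range`.
-/

set_option autoImplicit false

open IntermediateField CongruenceSubgroup
open scoped MatrixGroups
open Fermat.Agent.S24 Fermat.Agent.GAL

namespace Fermat.Agent.S48.ModL.AD

noncomputable section

variable (L : Lvl)

theorem thetaK_genK_eq_genMer {K : Type*} [Field K] [Algebra ℚ K] (ι : K →+* ℂ) (i : L.ι) :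
    L.thetaK ι (L.genK K i) = genMer L i := L.thetaK_genK ι i

theorem thetaK_jK_eq_jMer {K : Type*} [Field K] [Algebra ℚ K] (ι : K →+* ℂ) :
    L.thetaK ι (L.jK K) = jMer 1 := by
  rw [Lvl.jK, thetaK_genK_eq_genMer, genMer_i₀]

theorem isAlgebraic_thetaK {K : Type*} [Field K] [Algebra ℚ K] (ι : K →+* ℂ) (f : L.FK K) :
    IsAlgebraic ℂ⟮jMer 1⟯ (L.thetaK ι f) := by
  rw [← mem_algebraicClosure_iff]
  refine L.map_mem_of_gen (L.thetaK ι) (algebraicClosure ℂ⟮jMer 1⟯ Mer).toSubfield ?_ ?_ f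
  · intro a
    rw [L.thetaK_algebraMap]
    show algebraMap ℂ Mer (ι a) ∈ algebraicClosure ℂ⟮jMer 1⟯ Mer
    rw [mem_algebraicClosure_iff, IsScalarTower.algebraMap_apply ℂ ℂ⟮jMer 1⟯ Mer]
    exact isAlgebraic_algebraMap _
  · intro i
    rw [thetaK_genK_eq_genMer]
    show genMer L i ∈ algebraicClosure ℂ⟮jMer 1⟯ Mer
    rw [mem_algebraicClosure_iff]
    exact isAlgebraic_genMer i

theorem genField_le_fieldRange_thetaK :
    (genField L).toSubfield ≤ (L.thetaK (RingHom.id ℂ)).fieldRange := by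
  show Subfield.closure _ ≤ _
  rw [Subfield.closure_le]
  rintro x (⟨a, rfl⟩ | ⟨i, rfl⟩)
  · exact ⟨algebraMap ℂ (L.FK ℂ) a, L.thetaK_algebraMap _ a⟩
  · exact ⟨L.genK ℂ i, thetaK_genK_eq_genMer L _ i⟩

/-- An `L.G`-invariant element of `Mer` algebraic over `ℂ(j)` comes from the function field. -/
theorem exists_thetaK_eq_of_invariant (G : Mer) (hinv : ∀ γ ∈ L.G, actMer γ G = G)
    (halg : IsAlgebraic ℂ⟮jMer 1⟯ G) : ∃ w : L.FK ℂ, L.thetaK (RingHom.id ℂ) w = G :=
  genField_le_fieldRange_thetaK L (mem_genField_of_invariant L G hinv halg)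

/-- An `L.G`-invariant root of an element of the function field is in the function field. -/
theorem exists_thetaK_eq_of_pow (G : Mer) (hinv : ∀ γ ∈ L.G, actMer γ G = G)
    {m : ℕ} (hm : m ≠ 0) (f : L.FK ℂ) (hG : G ^ m = L.thetaK (RingHom.id ℂ) f) :
    ∃ w : L.FK ℂ, L.thetaK (RingHom.id ℂ) w = G ∧ w ^ m = f := by
  have halg : IsAlgebraic ℂ⟮jMer 1⟯ G := by
    apply IsAlgebraic.of_pow (Nat.pos_of_ne_zero hm)
    rw [hG]
    exact isAlgebraic_thetaK L _ f
  obtain ⟨w, hw⟩ := exists_thetaK_eq_of_invariant L G hinv halg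
  refine ⟨w, hw, ?_⟩
  apply L.thetaK_injective (RingHom.id ℂ)
  rw [map_pow, hw, hG]

end

end Fermat.Agent.S48.ModL.AD
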