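import Mathlib
import Fermat.Agent.S48.ModL.AD.Degree
import Fermat.Agent.GAL.AD.Criterion
import Fermat.Agent.S28.Analytic.MFDefs

/-!
# S48 / MODL, [P-AD2] : analytic dictionary at the cusps (port of `GAL/AD/Cusps.lean` to `L : Lvl`)

Every pole of `j` comes from a `q_h`-expansion of a conjugate (`h = L.h`), with the exact
ramification index.
-/

set_option autoImplicit false

open UpperHalfPlane hiding I
open Function ModularCurve AlgebraicCurve IntermediateField CongruenceSubgroup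
open scoped MatrixGroups
open Fermat.Agent.S24 Fermat.Agent.GAL.AD

namespace Fermat.Agent.S48.ModL

noncomputable section

namespace Lvl

variable (L : Lvl)

/-- conjugates of `T ^ (-h)` lie in `L.G`. -/
theorem conj_T_inv_pow_mem (g : SL(2, ℤ)) : g⁻¹ * ModularGroup.T⁻¹ ^ L.h * g ∈ L.G := by
  apply L.Gamma_le
  have h1 : (ModularGroup.T : SL(2, ℤ)) ^ L.h ∈ Gamma L.h := by
    have := ModularGroup_T_pow_mem_Gamma (L.h : ℤ) (L.h : ℤ) dvd_rfl
    rwa [zpow_natCast] at this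
  have h2 : (ModularGroup.T⁻¹ : SL(2, ℤ)) ^ L.h ∈ Gamma L.h := by
    rw [inv_pow]
    exact inv_mem h1
  have h3 := (Gamma_normal L.h).conj_mem _ h2 g⁻¹
  rwa [inv_inv] at h3

/-- all the conjugates of the generators are `h`-periodic. -/
theorem actHol_T_inv_pow_actHol (g : SL(2, ℤ)) (i : L.ι) :
    actHol (ModularGroup.T⁻¹ ^ L.h) (actHol g (L.hol i)) = actHol g (L.hol i) := by
  have e : ModularGroup.T⁻¹ ^ L.h * g = g * (g⁻¹ * ModularGroup.T⁻¹ ^ L.h * g) := by group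
  calc actHol (ModularGroup.T⁻¹ ^ L.h) (actHol g (L.hol i))
      = actHol (ModularGroup.T⁻¹ ^ L.h * g) (L.hol i) := by rw [map_mul]; rfl
    _ = actHol (g * (g⁻¹ * ModularGroup.T⁻¹ ^ L.h * g)) (L.hol i) := by rw [← e]
    _ = actHol g (actHol (g⁻¹ * ModularGroup.T⁻¹ ^ L.h * g) (L.hol i)) := by rw [map_mul]; rfl
    _ = actHol g (L.hol i) := by rw [L.inv i _ (L.conj_T_inv_pow_mem g)]

theorem actHol_hol_mem_range (g : SL(2, ℤ)) (i : L.ι) :
    algebraMap Hol Mer (actHol g (L.hol i)) ∈ (toMer L.h).fieldRange := by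
  obtain ⟨M, hM⟩ := L.growth i g
  have hB : (ModularForm.discriminant : ℍ → ℂ) ^ M ∈ HolPer L.h :=
    pow_mem (S28.discriminant_mem_HolPer L.h) M
  have hA : (ModularForm.discriminant : ℍ → ℂ) ^ M * (actHol g (L.hol i) : ℍ → ℂ) ∈ HolPer L.h := by
    rw [mem_HolPer_iff]
    refine ⟨?_, fun τ => ?_, hM⟩
    · exact ((⟨_, (mem_HolPer_iff.mp hB).1⟩ : Hol) * actHol g (L.hol i)).2
    · rw [Pi.mul_apply, Pi.mul_apply, (mem_HolPer_iff.mp hB).2.1 τ, ← actHol_T_inv_pow_apply,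
        L.actHol_T_inv_pow_actHol]
  refine ⟨algebraMap (HolPer L.h) (MerPer L.h) ⟨_, hA⟩ / algebraMap (HolPer L.h) (MerPer L.h) ⟨_, hB⟩,
    ?_⟩
  have hne : algebraMap Hol Mer (inclHol L.h ⟨_, hB⟩) ≠ 0 := by
    rw [Ne, map_eq_zero_iff _ (IsFractionRing.injective Hol Mer)]
    intro h
    exact pow_ne_zero M (ModularForm.discriminant_ne_zero UpperHalfPlane.I)
      (congrFun (congrArg Subtype.val h) UpperHalfPlane.I)
  rw [toMer_div, div_eq_iff hne, ← map_mul]
  congr 1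
  apply Subtype.ext
  funext τ
  show (ModularForm.discriminant τ) ^ M * (actHol g (L.hol i) : ℍ → ℂ) τ
    = (actHol g (L.hol i) : ℍ → ℂ) τ * (ModularForm.discriminant τ) ^ M
  ring

variable {K : Type*} [Field K] [Algebra ℚ K] (ι : K →+* ℂ)

theorem sigmaK_mem_range (x : L.X) (f : L.FK K) : L.sigmaK ι x f ∈ (toMer L.h).fieldRange := by
  apply L.map_mem_of_gen
  · intro a
    exact ⟨algebraMap ℂ (MerPer L.h) (ι a), by rw [toMer_const, sigmaK_algebraMap]⟩
  · intro i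
    rw [sigmaK, sigma0K_genK]
    exact L.actHol_hol_mem_range _ i

/-- `L.sigmaK ι x` with values in `MerPer L.h`. -/
def sigmaPerK (x : L.X) : L.FK K →+* MerPer L.h :=
  liftThrough (toMer L.h) (L.sigmaK ι x) (L.sigmaK_mem_range ι x)

theorem toMer_sigmaPerK (x : L.X) (f : L.FK K) :
    toMer L.h (L.sigmaPerK ι x f) = L.sigmaK ι x f :=
  liftThrough_spec _ _ _ f

/-- The `q_h`-expansion of `L.sigmaK ι x f`. -/
def sigmaInfK (x : L.X) : L.FK K →+* LaurentSeries ℂ := (toLaurent L.h).comp (L.sigmaPerK ι x)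

theorem sigmaInfK_apply (x : L.X) (f : L.FK K) :
    L.sigmaInfK ι x f = toLaurent L.h (L.sigmaPerK ι x f) := rfl

theorem sigmaInfK_T_inv_smul (x : L.X) (f : L.FK K) :
    L.sigmaInfK ι (ModularGroup.T⁻¹ • x) f = rot (zetaU L.h) (L.sigmaInfK ι x f) := by
  apply toLaurent_eq_rot_of_toMer_eq
  rw [toMer_sigmaPerK, toMer_sigmaPerK, actMer_sigmaK]

theorem sigmaInfK_injective : Injective (L.sigmaInfK (K := K) ι) := by
  intro x y hxy
  apply L.sigmaK_injective ι
  ext f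
  have h1 : L.sigmaInfK ι x f = L.sigmaInfK ι y f := by rw [hxy]
  have h2 := toLaurent_injective L.h h1
  rw [← toMer_sigmaPerK, ← toMer_sigmaPerK, h2]

theorem sigmaPerK_algebraMap (x : L.X) (a : K) :
    L.sigmaPerK ι x (algebraMap K (L.FK K) a) = algebraMap ℂ (MerPer L.h) (ι a) := by
  apply toMer_injective L.h
  rw [toMer_sigmaPerK, toMer_const, sigmaK_algebraMap]

theorem sigmaInfK_algebraMap (x : L.X) (a : K) :
    L.sigmaInfK ι x (algebraMap K (L.FK K) a) = HahnSeries.C (ι a) := by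
  rw [sigmaInfK_apply, sigmaPerK_algebraMap, toLaurent_const]

theorem sigmaInfK_algebraMap_order (x : L.X) (a : K) :
    (L.sigmaInfK ι x (algebraMap K (L.FK K) a)).order = 0 := by
  rw [sigmaInfK_algebraMap]
  exact HahnSeries.order_C

theorem sigmaInfK_jK (x : L.X) : L.sigmaInfK ι x (L.jK K) = qExpand ℂ L.h (jqModC ℂ) := by
  have h1 : toMer L.h (L.sigmaPerK ι x (L.jK K)) = toMer 1 (jdPer 1) := by
    rw [toMer_sigmaPerK, sigmaK_jK, toMer_jdPer]
  rw [sigmaInfK_apply, toLaurent_eq_qExpand_of_toMer_eq 1 (mul_one L.h).symm h1, toLaurent_jdPer,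
    jqNModC_one]

theorem sigmaInfK_jK_inv_order (x : L.X) : (L.sigmaInfK ι x (L.jK K)⁻¹).order = (L.h : ℤ) := by
  rw [map_inv₀, laurent_order_inv, sigmaInfK_jK, order_qExpand, order_jqModC]
  ring

/-- **Dictionary at the cusps.** -/
theorem exists_cusp_of_place [IsAlgClosed K] (v : Place K (L.FK K))
    (hv : v.ord (L.jK K) < 0) :
    ∃ (x : L.X) (k s : ℕ), k * s = L.h ∧ (ModularGroup.T⁻¹ : SL(2, ℤ)) ^ s • x = x ∧
      ∀ f : L.FK K, f ≠ 0 → (L.sigmaInfK ι x f).order = (k : ℤ) * v.ord f := by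
  have : CharZero K := algebraRat.charZero K
  refine param_exists_embedding_rot (L.isFiniteParam_jK ι).inv (L := ℂ) (X := L.X)
    (G := SL(2, ℤ)) (by rw [IsFiniteParam.finrank_inv, L.finrank_jK ι])
    (L.sigmaInfK ι) (L.sigmaInfK_injective ι)
    (fun i j a => by rw [sigmaInfK_algebraMap, sigmaInfK_algebraMap])
    (fun i a _ => L.sigmaInfK_algebraMap_order ι i a)
    (fun i j => by rw [map_inv₀, map_inv₀, sigmaInfK_jK, sigmaInfK_jK])
    L.h (Nat.pos_of_ne_zero L.h_ne) (fun i => L.sigmaInfK_jK_inv_order ι i)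
    (zetaU L.h) (isPrimitiveRoot_zetaU L.h) ModularGroup.T⁻¹
    (fun i f => L.sigmaInfK_T_inv_smul ι i f) v ?_
  rw [Place.ord_inv]
  omega

end Lvl

end

end Fermat.Agent.S48.ModL
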