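import Mathlib
import Fermat.Agent.S48.ModL.AD.Points
import Fermat.Agent.S48.ModL.AD.Cusps

/-!
# S48 / MODL, [P-AD2] : port of `GAL/AD/Criterion.lean` to `L : Lvl`

Criterion: if `L.thetaK ι f = h ^ p` with `h : Mer` fixed by the elliptic and parabolic elements of
`L.G`, then `p ∣ ord_v f` at every place `v`.
-/

set_option autoImplicit false

open UpperHalfPlane hiding I
open Function ModularCurve AlgebraicCurve IntermediateField CongruenceSubgroup WithZero
open scoped MatrixGroups Manifold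
open Fermat.Agent.S24 Fermat.Agent.GAL.AD

namespace Fermat.Agent.S48.ModL

noncomputable section

namespace Lvl

variable (L : Lvl)

variable {K : Type*} [Field K] [Algebra ℚ K] (ι : K →+* ℂ) [IsAlgClosed K]

/-- **Criterion for divisibility of a divisor.** -/
theorem dvd_ord_of_root {p : ℕ} (hp : p ≠ 0) (f : L.FK K) (hf : f ≠ 0) (h : Mer)
    (hh : h ^ p = L.thetaK ι f)
    (hell : ∀ γ ∈ L.G, ∀ τ : ℍ, γ • τ = τ → actMer γ h = h)
    (hpar : ∀ γ ∈ L.G, ∀ (g : SL(2, ℤ)) (n : ℕ),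
      γ = g⁻¹ * ModularGroup.T⁻¹ ^ n * g → actMer γ h = h)
    (v : Place K (L.FK K)) : (p : ℤ) ∣ v.ord f := by
  have hθf : L.thetaK ι f ≠ 0 := (map_ne_zero _).mpr hf
  have hh0 : h ≠ 0 := by
    rintro rfl
    rw [zero_pow hp] at hh
    exact hθf hh.symm
  have hj0 : L.jK K ≠ 0 := fun h0 => L.transcendental_jK K (h0 ▸ isAlgebraic_zero)
  by_cases hv : 0 ≤ v.ord (L.jK K)
  · obtain ⟨τ, k, hk, h1, h2⟩ := L.exists_point_of_place ι v
      ((Place.mem_iff_ord_nonneg v hj0).2 hv)
    obtain ⟨n, hn⟩ := h2 h hh0 (fun γ hγ hγτ => hell γ hγ τ hγτ)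
    have h3 := h1 f hf
    rw [← hh, map_pow, hn, ← exp_nsmul, exp_inj] at h3
    have hk' : (k : ℤ) ≠ 0 := by exact_mod_cast hk.ne'
    refine ⟨-n, ?_⟩
    apply mul_left_cancel₀ hk'
    simp only [nsmul_eq_mul] at h3
    linarith
  · push Not at hv
    obtain ⟨x, k, s, hks, hx, h1⟩ := L.exists_cusp_of_place ι v hv
    set g : SL(2, ℤ) := Quotient.out x with hg
    have hgx : ((g : SL(2, ℤ)) : L.X) = x := Quotient.out_eq' x
    have hmem : g⁻¹ * ModularGroup.T⁻¹ ^ s * g ∈ L.G := by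
      have h2 : ((ModularGroup.T⁻¹ ^ s * g : SL(2, ℤ)) : L.X) = (g : L.X) := by
        rw [← smul_eq_mul, ← MulAction.Quotient.smul_coe, hgx, hx]
      have h3 := QuotientGroup.eq.mp h2.symm
      rwa [← mul_assoc] at h3
    have h3 := hpar _ hmem g s rfl
    set H : Mer := actMer g h with hH
    have hHs : actMer (ModularGroup.T⁻¹ ^ s) H = H := by
      have e : ModularGroup.T⁻¹ ^ s * g = g * (g⁻¹ * ModularGroup.T⁻¹ ^ s * g) := by group
      calc actMer (ModularGroup.T⁻¹ ^ s) (actMer g h)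
          = actMer (ModularGroup.T⁻¹ ^ s * g) h := by rw [map_mul]; rfl
        _ = actMer (g * (g⁻¹ * ModularGroup.T⁻¹ ^ s * g)) h := by rw [← e]
        _ = actMer g (actMer (g⁻¹ * ModularGroup.T⁻¹ ^ s * g) h) := by rw [map_mul]; rfl
        _ = actMer g h := by rw [h3]
    have hHN : actMer (ModularGroup.T⁻¹ ^ L.h) H = H := by
      have e : (ModularGroup.T⁻¹ : SL(2, ℤ)) ^ L.h = (ModularGroup.T⁻¹ ^ s) ^ k := by
        rw [← pow_mul, mul_comm, hks]
      rw [e, actMer_pow]
      exact Function.iterate_fixed hHs k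
    have hHp : H ^ p = toMer L.h (L.sigmaPerK ι x f) := by
      rw [toMer_sigmaPerK, hH, ← map_pow, hh]
      rfl
    obtain ⟨U, hU⟩ := exists_merPer_of_pow L.h hp H _ hHp hHN
    have hH0 : H ≠ 0 := (map_ne_zero _).mpr hh0
    have hU0 : U ≠ 0 := by
      rintro rfl
      rw [map_zero] at hU
      exact hH0 hU.symm
    obtain ⟨n, hn⟩ := exists_order_eq_mul L.h hks U hU0 (by rw [hU]; exact hHs)
    have hUp : L.sigmaPerK ι x f = U ^ p := by
      apply toMer_injective L.h
      rw [map_pow, hU, hHp]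
    have h4 := h1 f hf
    rw [sigmaInfK_apply, hUp, map_pow, HahnSeries.order_pow, hn] at h4
    have hk' : (k : ℤ) ≠ 0 := by
      have : k ≠ 0 := by
        rintro rfl
        exact L.h_ne (by simpa using hks.symm)
      exact_mod_cast this
    refine ⟨n, ?_⟩
    apply mul_left_cancel₀ hk'
    simp only [nsmul_eq_mul] at h4
    linarith

end Lvl

end

end Fermat.Agent.S48.ModL
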